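import Mathlib
import Fermat.Agent.H13.Cft.Homological

/-!
# P-CFT row 523 (FR-EXT), generic core (Mathlib + the definition of `DualityP`)

For a morphism `φ : S₁ ⟶ S₂` of short exact sequences of homological complexes in an abelian
category, the `τ₂` versions of the four-lemma consequences of the homology sequence
(`frExt_epi_homologyMap_τ₂`, `frExt_mono_homologyMap_τ₂`), and
`frExt_dualityP_τ₂ : DualityP φ.τ₁ → DualityP φ.τ₃ → DualityP φ.τ₂`.
-/

set_option autoImplicit false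

universe u

open CategoryTheory ComposableArrows Abelian

namespace Fermat.Agent.H50

open HomologicalComplex HomologicalComplex.HomologySequence

section generic

variable {C ι : Type*} [Category C] [Abelian C] {c : ComplexShape ι}
  {S₁ S₂ : ShortComplex (HomologicalComplex C c)} (φ : S₁ ⟶ S₂)
  (hS₁ : S₁.ShortExact) (hS₂ : S₂.ShortExact)

include hS₁ hS₂

/-- `H_i(τ₂)` is epi if `H_i(τ₁)`, `H_i(τ₃)` are epi and `H_j(τ₁)` is mono (`i → j`). -/
theorem frExt_epi_homologyMap_τ₂ (i j : ι) (hij : c.Rel i j)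
    (h₁ : Epi (homologyMap φ.τ₁ i)) (h₃ : Epi (homologyMap φ.τ₃ i))
    (h₁' : Mono (homologyMap φ.τ₁ j)) :
    Epi (homologyMap φ.τ₂ i) := by
  apply epi_of_epi_of_epi_of_mono
    ((δlastFunctor ⋙ δlastFunctor).map (mapComposableArrows₅ φ hS₁ hS₂ i j hij))
  · exact (composableArrows₅_exact hS₁ i j hij).δlast.δlast
  · exact (composableArrows₅_exact hS₂ i j hij).δlast.δlast
  · exact h₁
  · exact h₃
  · exact h₁'

/-- `H_j(τ₂)` is mono if `H_i(τ₃)` is epi and `H_j(τ₁)`, `H_j(τ₃)` are mono (`i → j`). -/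
theorem frExt_mono_homologyMap_τ₂ (i j : ι) (hij : c.Rel i j)
    (h₃ : Epi (homologyMap φ.τ₃ i)) (h₁ : Mono (homologyMap φ.τ₁ j))
    (h₃' : Mono (homologyMap φ.τ₃ j)) :
    Mono (homologyMap φ.τ₂ j) := by
  apply mono_of_epi_of_mono_of_mono
    ((δ₀Functor ⋙ δ₀Functor).map (mapComposableArrows₅ φ hS₁ hS₂ i j hij))
  · exact (composableArrows₅_exact hS₁ i j hij).δ₀.δ₀
  · exact (composableArrows₅_exact hS₂ i j hij).δ₀.δ₀
  · exact h₃
  · exact h₁
  · exact h₃'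

end generic

open Fermat.Agent.H13.Cft in
/-- **Generic core of FR-EXT**: `DualityP` is closed under extensions. -/
theorem frExt_dualityP_τ₂ {k : Type u} [CommRing k]
    {S₁ S₂ : ShortComplex (CochainComplex (ModuleCat.{u} k) ℕ)} (φ : S₁ ⟶ S₂)
    (hS₁ : S₁.ShortExact) (hS₂ : S₂.ShortExact)
    (h₁ : DualityP φ.τ₁) (h₃ : DualityP φ.τ₃) : DualityP φ.τ₂ := by
  obtain ⟨a1, a2, a3⟩ := h₁
  obtain ⟨c1, c2, c3⟩ := h₃
  have r12 : (ComplexShape.up ℕ).Rel 1 2 := rfl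
  have r23 : (ComplexShape.up ℕ).Rel 2 3 := rfl
  have a2m : Mono (homologyMap φ.τ₁ 2) := inferInstance
  have a2e : Epi (homologyMap φ.τ₁ 2) := inferInstance
  have c2m : Mono (homologyMap φ.τ₃ 2) := inferInstance
  have c2e : Epi (homologyMap φ.τ₃ 2) := inferInstance
  refine ⟨frExt_epi_homologyMap_τ₂ φ hS₁ hS₂ 1 2 r12 a1 c1 a2m, ?_,
    frExt_mono_homologyMap_τ₂ φ hS₁ hS₂ 2 3 r23 c2e a3 c3⟩
  have hm := frExt_mono_homologyMap_τ₂ φ hS₁ hS₂ 1 2 r12 c1 a2m c2m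
  have he := frExt_epi_homologyMap_τ₂ φ hS₁ hS₂ 2 3 r23 a2e c2e a3
  exact isIso_of_mono_of_epi _

end Fermat.Agent.H50
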