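import Mathlib
import Fermat.Agent.H13.Cft.Interfaces
import Fermat.Agent.H53.Cft.FrNat
import Fermat.Agent.H50.Cft.ExtCore

/-!
# P-CFT row 523 (FR-EXT): assembly from the exactness of the two sides

`extClosed_of_exact` : `ExtClosedStatement` from the exactness statements (f) of FR-NAT
(`FrExtCcExactStatement`, `FrExtDualExactStatement`), the naturality of `Θ` (helper53,
`thetaNatTrans`) and the generic core `frExt_dualityP_τ₂`.
-/

set_option autoImplicit false

universe u

open CategoryTheory groupCohomology

namespace Fermat.Agent.H50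

open Fermat.Agent.H13.Cft Fermat.Agent.H53

/-- (f), compact-support side: `M ↦ ccComplex 𝔄 M` is exact on short exact sequences with good
middle term. -/
def FrExtCcExactStatement : Prop :=
  ∀ {k G : Type u} [Field k] [Group G] (𝔄 : ArithDatum k G) (X : ShortComplex (Rep.{u} k G)),
    X.ShortExact → IsGood 𝔄 X.X₂ → (X.map (ccFunctor 𝔄)).ShortExact

/-- (f), dual side: `M ↦ dualCx (C(M^*(χ)))` is exact on short exact sequences with good
middle term. -/
def FrExtDualExactStatement : Prop :=
  ∀ {k G : Type u} [Field k] [Group G] (𝔄 : ArithDatum k G) (X : ShortComplex (Rep.{u} k G)),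
    X.ShortExact → IsGood 𝔄 X.X₂ → (X.map (dualSideFunctor 𝔄)).ShortExact

/-- **FR-EXT** from the exactness of the two sides. -/
theorem extClosed_of_exact (hcc : FrExtCcExactStatement.{u})
    (hdual : FrExtDualExactStatement.{u}) : ExtClosedStatement.{u} := by
  intro k G _ _ 𝔄 T hc X hX hgood h₁ h₃
  exact frExt_dualityP_τ₂ (X.mapNatTrans (thetaNatTrans T hc)) (hcc 𝔄 X hX hgood)
    (hdual 𝔄 X hX hgood) h₁ h₃

end Fermat.Agent.H50
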