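import Mathlib
import Fermat.Agent.H13.Cft.Interfaces
import Fermat.Agent.H53.Cft.FrNat
import Fermat.Agent.H87.Cft.LvlSes
import Fermat.Agent.H50.Cft.ExtAsm

/-!
# P-CFT row 523 (FR-EXT): exactness of the dual side

`frExt_dualExact : FrExtDualExactStatement` : for `X` short exact with good middle term the short
complex `X.map (dualSideFunctor 𝔄)` of cochain complexes is short exact.
-/

set_option autoImplicit false

universe u

open CategoryTheory groupCohomology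

namespace Fermat.Agent.H50

open Fermat.Agent.H13.Cft Fermat.Agent.H53

section linalg

variable {k : Type*} [Field k] {A B C : Type*} [AddCommGroup A] [Module k A]
  [AddCommGroup B] [Module k B] [AddCommGroup C] [Module k C]

theorem frExt_dual_injective (g : B →ₗ[k] C) (hg : Function.Surjective g)
    {ξ ξ' : Module.Dual k C} (h : ξ ∘ₗ g = ξ' ∘ₗ g) : ξ = ξ' := by
  refine LinearMap.ext fun c => ?_
  obtain ⟨b, rfl⟩ := hg c
  exact LinearMap.congr_fun h b

theorem frExt_dual_surjective (f : A →ₗ[k] B) (hf : Function.Injective f)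
    (ζ : Module.Dual k A) : ∃ η : Module.Dual k B, η ∘ₗ f = ζ := by
  obtain ⟨r, hr⟩ := f.exists_leftInverse_of_injective (LinearMap.ker_eq_bot.mpr hf)
  refine ⟨ζ ∘ₗ r, ?_⟩
  rw [LinearMap.comp_assoc, hr, LinearMap.comp_id]

theorem frExt_dual_exact (f : A →ₗ[k] B) (g : B →ₗ[k] C) (hg : Function.Surjective g)
    (hex : ∀ b, g b = 0 → ∃ a, f a = b) (η : Module.Dual k B) (hη : η ∘ₗ f = 0) :
    ∃ ξ : Module.Dual k C, ξ ∘ₗ g = η := by
  obtain ⟨s, hs⟩ := g.exists_rightInverse_of_surjective (LinearMap.range_eq_top.mpr hg)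
  refine ⟨η ∘ₗ s, LinearMap.ext fun b => ?_⟩
  have h1 : g (s (g b) - b) = 0 := by
    have := LinearMap.congr_fun hs (g b)
    simp only [LinearMap.comp_apply, LinearMap.id_apply] at this
    rw [map_sub, this, sub_self]
  obtain ⟨a, ha⟩ := hex _ h1
  have h2 : η (s (g b) - b) = 0 := by
    rw [← ha]
    exact LinearMap.congr_fun hη a
  rw [map_sub, sub_eq_zero] at h2
  exact h2

end linalg

section rep

variable {k G : Type u} [Field k] [Group G]

/-- the twisted dual of a trivialised module is smooth -/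
theorem frExt_isSmooth_dualTwist (𝔄 : ArithDatum k G) (M : Rep.{u} k G)
    (h : IsTrivialisedBy 𝔄.lvl M) : IsSmooth 𝔄.lvl (M.dualTwist 𝔄.χ) := by
  obtain ⟨N, hN, hNM⟩ := h
  obtain ⟨Nχ, hNχ, hχ⟩ := 𝔄.χ_level
  obtain ⟨N'', hN'', hle⟩ := 𝔄.lvl.directed N hN Nχ hNχ
  intro ξ
  refine ⟨N'', hN'', fun s hs => ?_⟩
  have hs1 : s ∈ N := (hle.trans inf_le_left) hs
  have hs2 : s ∈ Nχ := (hle.trans inf_le_right) hs
  have h1 : M.ρ s⁻¹ = 1 := hNM _ (N.inv_mem hs1)
  rw [Rep.dualTwist_ρ_apply, hχ s hs2, h1]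
  refine LinearMap.ext fun m => ?_
  simp

variable (𝔄 : ArithDatum k G) {X : ShortComplex (Rep.{u} k G)}

theorem frExt_dualTwistMap_apply {M M' : Rep.{u} k G} (χ : G →* kˣ) (f : M ⟶ M')
    (ξ : Module.Dual k M') :
    ((dualTwistMap χ f).hom ξ : Module.Dual k M) = ξ ∘ₗ f.hom.toLinearMap := rfl

/-- level cochains of the dual sequence: injectivity -/
theorem frExt_dualLvl_injective (hX : X.ShortExact) (n : ℕ) :
    Function.Injective ((lvlMap 𝔄.lvl (dualTwistMap 𝔄.χ X.g)).f n).hom := by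
  have hsurj : Function.Surjective X.g.hom := by
    have := hX.epi_g
    exact (Rep.epi_iff_surjective X.g).mp this
  refine Fermat.Agent.H87.Cft.lvlMap_f_injective 𝔄.lvl _ ?_ n
  intro ξ ξ' h
  exact frExt_dual_injective X.g.hom.toLinearMap hsurj h

/-- level cochains of the dual sequence: exactness -/
theorem frExt_dualLvl_exact (hX : X.ShortExact) (n : ℕ)
    (x : lvlCochains 𝔄.lvl (X.X₂.dualTwist 𝔄.χ) n)
    (hx : ((lvlMap 𝔄.lvl (dualTwistMap 𝔄.χ X.f)).f n).hom x = 0) :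
    ∃ a : lvlCochains 𝔄.lvl (X.X₃.dualTwist 𝔄.χ) n,
      ((lvlMap 𝔄.lvl (dualTwistMap 𝔄.χ X.g)).f n).hom a = x := by
  have hsurj : Function.Surjective X.g.hom := by
    have := hX.epi_g
    exact (Rep.epi_iff_surjective X.g).mp this
  have hex : LinearMap.range X.f.hom.toLinearMap = LinearMap.ker X.g.hom.toLinearMap :=
    (hX.exact.map (forget₂ (Rep k G) (ModuleCat k))).moduleCat_range_eq_ker
  have hex' : ∀ b : X.X₂, X.g.hom.toLinearMap b = 0 → ∃ a : X.X₁, X.f.hom.toLinearMap a = b := by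
    intro b hb
    have h1 : b ∈ LinearMap.ker X.g.hom.toLinearMap := hb
    rw [← hex] at h1
    exact h1
  refine Fermat.Agent.H87.Cft.lvlMap_f_exact 𝔄.lvl (dualTwistMap 𝔄.χ X.g)
    (dualTwistMap 𝔄.χ X.f) ?_ ?_ n x hx
  · intro ξ ξ' h
    exact frExt_dual_injective X.g.hom.toLinearMap hsurj h
  · intro η hη
    exact frExt_dual_exact X.f.hom.toLinearMap X.g.hom.toLinearMap hsurj hex' η hη

/-- level cochains of the dual sequence: surjectivity -/
theorem frExt_dualLvl_surjective (hX : X.ShortExact) (ht : IsTrivialisedBy 𝔄.lvl X.X₂) (n : ℕ) :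
    Function.Surjective ((lvlMap 𝔄.lvl (dualTwistMap 𝔄.χ X.f)).f n).hom := by
  have hinj : Function.Injective X.f.hom := by
    have := hX.mono_f
    exact (Rep.mono_iff_injective X.f).mp this
  refine Fermat.Agent.H87.Cft.lvlMap_f_surjective 𝔄.lvl _ ?_
    (frExt_isSmooth_dualTwist 𝔄 X.X₂ ht) n
  intro ζ
  exact frExt_dual_surjective X.f.hom.toLinearMap hinj ζ

end rep

end Fermat.Agent.H50

namespace Fermat.Agent.H50

open Fermat.Agent.H13.Cft Fermat.Agent.H53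

/-- a short complex of modules with injective `f`, surjective `g` and `ker g ⊆ range f` is short
exact -/
theorem frExt_shortExact_of {k : Type u} [Ring k] (S : ShortComplex (ModuleCat.{u} k))
    (hf : Function.Injective S.f.hom) (hg : Function.Surjective S.g.hom)
    (hex : ∀ x : S.X₂, S.g.hom x = 0 → ∃ y : S.X₁, S.f.hom y = x) : S.ShortExact :=
  { exact := (ShortComplex.moduleCat_exact_iff S).mpr hex
    mono_f := (ModuleCat.mono_iff_injective _).mpr hf
    epi_g := (ModuleCat.epi_iff_surjective _).mpr hg }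

variable {k G : Type u} [Field k] [Group G] (𝔄 : ArithDatum k G)
  {X : ShortComplex (Rep.{u} k G)}

/-- the degreewise statement on the dual side, for cochains of degree `n` -/
theorem frExt_dualDeg (hX : X.ShortExact) (ht : IsTrivialisedBy 𝔄.lvl X.X₂) (n : ℕ) :
    (∀ ξ ξ' : Module.Dual k (lvlCochains 𝔄.lvl (X.X₁.dualTwist 𝔄.χ) n),
      ξ ∘ₗ ((lvlMap 𝔄.lvl (dualTwistMap 𝔄.χ X.f)).f n).hom =
        ξ' ∘ₗ ((lvlMap 𝔄.lvl (dualTwistMap 𝔄.χ X.f)).f n).hom → ξ = ξ') ∧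
    (∀ ζ : Module.Dual k (lvlCochains 𝔄.lvl (X.X₃.dualTwist 𝔄.χ) n),
      ∃ η : Module.Dual k (lvlCochains 𝔄.lvl (X.X₂.dualTwist 𝔄.χ) n),
        η ∘ₗ ((lvlMap 𝔄.lvl (dualTwistMap 𝔄.χ X.g)).f n).hom = ζ) ∧
    (∀ η : Module.Dual k (lvlCochains 𝔄.lvl (X.X₂.dualTwist 𝔄.χ) n),
      η ∘ₗ ((lvlMap 𝔄.lvl (dualTwistMap 𝔄.χ X.g)).f n).hom = 0 →
      ∃ ξ : Module.Dual k (lvlCochains 𝔄.lvl (X.X₁.dualTwist 𝔄.χ) n),
        ξ ∘ₗ ((lvlMap 𝔄.lvl (dualTwistMap 𝔄.χ X.f)).f n).hom = η) := by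
  refine ⟨fun ξ ξ' h => ?_, fun ζ => ?_, fun η hη => ?_⟩
  · exact frExt_dual_injective _ (frExt_dualLvl_surjective 𝔄 hX ht n) h
  · exact frExt_dual_surjective _ (frExt_dualLvl_injective 𝔄 hX n) ζ
  · exact frExt_dual_exact _ _ (frExt_dualLvl_surjective 𝔄 hX ht n)
      (fun x hx => frExt_dualLvl_exact 𝔄 hX n x hx) η hη

/-- **(f), dual side.** -/
theorem frExt_dualExact : FrExtDualExactStatement.{u} := by
  intro k G _ _ 𝔄 X hX hgood
  refine HomologicalComplex.shortExact_of_degreewise_shortExact _ fun m => ?_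
  match m with
  | 0 =>
    obtain ⟨h1, h2, h3⟩ := frExt_dualDeg 𝔄 hX hgood.2 3
    exact frExt_shortExact_of _ (fun ξ ξ' h => h1 ξ ξ' h) (fun ζ => h2 ζ) (fun η hη => h3 η hη)
  | 1 =>
    obtain ⟨h1, h2, h3⟩ := frExt_dualDeg 𝔄 hX hgood.2 2
    exact frExt_shortExact_of _ (fun ξ ξ' h => h1 ξ ξ' h) (fun ζ => h2 ζ) (fun η hη => h3 η hη)
  | 2 =>
    obtain ⟨h1, h2, h3⟩ := frExt_dualDeg 𝔄 hX hgood.2 1
    exact frExt_shortExact_of _ (fun ξ ξ' h => h1 ξ ξ' h) (fun ζ => h2 ζ) (fun η hη => h3 η hη)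
  | 3 =>
    obtain ⟨h1, h2, h3⟩ := frExt_dualDeg 𝔄 hX hgood.2 0
    exact frExt_shortExact_of _ (fun ξ ξ' h => h1 ξ ξ' h) (fun ζ => h2 ζ) (fun η hη => h3 η hη)
  | n + 4 =>
    have hs : ∀ x y : PUnit.{u + 1}, x = y := fun _ _ => rfl
    exact frExt_shortExact_of _ (fun ξ ξ' _ => hs ξ ξ') (fun ζ => ⟨PUnit.unit, hs _ _⟩)
      (fun η _ => ⟨PUnit.unit, hs _ _⟩)

end Fermat.Agent.H50
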