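import Mathlib
import Fermat.Agent.H13.Cft.Interfaces
import Fermat.Agent.H53.Cft.FrNatExact
import Fermat.Agent.H87.Cft.LvlSes
import Fermat.Agent.H50.Cft.ExtDual

/-!
# P-CFT row 523 (FR-EXT): `ExtClosedStatement`, unconditional

`extClosed : ExtClosedStatement.{u}` : the class `{M | Θ¹ epi, Θ² iso, Θ³ mono}` is closed under
extensions with good middle term.

Inputs: generic core `frExt_dualityP_τ₂` (H50.Cft.ExtCore), naturality of `Θ`
(`H53.thetaNatTrans`), exactness of the compact-support side (`H53.ccFunctor_shortExact`,
with `H87.Cft.lvlSes`), exactness of the dual side (`frExt_dualExact`, H50.Cft.ExtDual).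
-/

set_option autoImplicit false

universe u

open CategoryTheory groupCohomology

namespace Fermat.Agent.H50

open Fermat.Agent.H13.Cft Fermat.Agent.H53

/-- (f), compact-support side (helper53 + helper87). -/
theorem frExt_ccExact : FrExtCcExactStatement.{u} := by
  intro k G _ _ 𝔄 X hX hgood
  exact ccFunctor_shortExact 𝔄 Fermat.Agent.H87.Cft.lvlSes X hX hgood.2.isSmooth

/-- **[F-EXT]** The class `{M | Θ¹ epi, Θ² iso, Θ³ mono}` is closed under extensions. -/
theorem extClosed : ExtClosedStatement.{u} :=
  extClosed_of_exact frExt_ccExact frExt_dualExact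

end Fermat.Agent.H50
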